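/-
S15lib / SEL / Defs (helper6).  Project E, block SEL: the vocabulary.

`Γ = Gal(ℚ̄/ℚ)` acts on an abelian group `P` (`DistribMulAction`).  A *Kummer-type cocycle* is a
function `z : Γ → P` with `z (g h) = z g + g • z h` which is level-constant (= continuous).  Local
behaviour is only ever tested on the inertia groups `A.inertiaSubgroupIn ℚ` of the valuation subrings
`A` of `ℚ̄` over a prime number (the prelude's formalism):

* `UnramAt ℓ z`      : `z` vanishes on every inertia group over `ℓ`;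
* `UnitClassAt ℓ φ z`: on every inertia group `I_A` over `ℓ` the `μ`-valued function `φ ∘ z`
  (`φ : P → ℚ̄` a multiplicative character) is the Kummer cocycle `σ ↦ σ β / β` of a UNIT `β` of `A`
  ("peu ramifié": the class is a unit class).
-/
import Mathlib
import Fermat.Prelude.Def_FLTPrelim_Ramification

set_option autoImplicit false

namespace Fermat.Agent.S15lib.SEL

local notation "Ω" => AlgebraicClosure ℚ
local notation "Γ" => (AlgebraicClosure ℚ ≃ₐ[ℚ] AlgebraicClosure ℚ)

section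

variable {P : Type*} [AddCommGroup P] [DistribMulAction Γ P]

/-- `z : Γ → P` is a 1-cocycle -/
def IsCocycle (z : Γ → P) : Prop := ∀ g h : Γ, z (g * h) = z g + g • z h

/-- `z` is constant on the cosets `g * Gal(ℚ̄/F)` of a finite extension `F` (continuity) -/
def IsLevelConst {X : Type*} (z : Γ → X) : Prop :=
  ∃ F : IntermediateField ℚ Ω, FiniteDimensional ℚ F ∧
    ∀ (g s : Γ), s ∈ F.fixingSubgroup → z (g * s) = z g

/-- `z` vanishes on all inertia groups over the prime `ℓ` -/
def UnramAt (ℓ : ℕ) (z : Γ → P) : Prop :=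
  ∀ A : ValuationSubring Ω, A.LiesOverPrime ℓ → ∀ σ ∈ A.inertiaSubgroupIn ℚ, z σ = 0

/-- on every inertia group over `ℓ`, `φ ∘ z` is the Kummer cocycle of a unit of the valuation ring -/
def UnitClassAt (ℓ : ℕ) (φ : P → Ω) (z : Γ → P) : Prop :=
  ∀ A : ValuationSubring Ω, A.LiesOverPrime ℓ → ∃ β : Ω, A.valuation β = 1 ∧
    ∀ σ ∈ A.inertiaSubgroupIn ℚ, σ β = φ (z σ) * β

/-- `φ : P → ℚ̄` is an injective `Γ`-equivariant character with values in the `r`-th roots of unity
(so `P ≅ μ_r` as a `Γ`-module when `|P| = r`) -/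
structure IsMuChar (r : ℕ) (φ : P → Ω) : Prop where
  map_zero : φ 0 = 1
  map_add : ∀ x y, φ (x + y) = φ x * φ y
  pow_eq_one : ∀ x, φ x ^ r = 1
  injective : Function.Injective φ
  equivariant : ∀ (g : Γ) (x : P), φ (g • x) = g (φ x)

end

/-- additive characters of `Γ` with values in `Q`, continuous -/
def IsAddChar {Q : Type*} [AddCommGroup Q] (χ : Γ → Q) : Prop :=
  (∀ g h : Γ, χ (g * h) = χ g + χ h) ∧ IsLevelConst χ

/-- `χ` vanishes on all inertia groups over `ℓ` -/
def AddUnramAt {Q : Type*} [AddCommGroup Q] (ℓ : ℕ) (χ : Γ → Q) : Prop :=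
  ∀ A : ValuationSubring Ω, A.LiesOverPrime ℓ → ∀ σ ∈ A.inertiaSubgroupIn ℚ, χ σ = 0

/-- continuous multiplicative cocycles `Γ → ℚ̄` with values in the `r`-th roots of unity -/
def IsMuCocycle (r : ℕ) (ψ : Γ → Ω) : Prop :=
  (∀ g h : Γ, ψ (g * h) = ψ g * g (ψ h)) ∧ (∀ g, ψ g ^ r = 1) ∧ IsLevelConst ψ

/-- `ψ` is trivial on all inertia groups over `ℓ` -/
def MulUnramAt (ℓ : ℕ) (ψ : Γ → Ω) : Prop :=
  ∀ A : ValuationSubring Ω, A.LiesOverPrime ℓ → ∀ σ ∈ A.inertiaSubgroupIn ℚ, ψ σ = 1

/-- on every inertia group over `ℓ`, `ψ` is the Kummer cocycle `σ ↦ σ β / β` of a unit `β` -/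
def MulUnitClassAt (ℓ : ℕ) (ψ : Γ → Ω) : Prop :=
  ∀ A : ValuationSubring Ω, A.LiesOverPrime ℓ → ∃ β : Ω, A.valuation β = 1 ∧
    ∀ σ ∈ A.inertiaSubgroupIn ℚ, σ β = ψ σ * β

/-- the four kinds of Jordan–Hölder pieces: étale-tag / mult-tag at `r`, good / defect at `N` -/
inductive Kind
  | eGood | eDefect | mGood | mDefect
  deriving DecidableEq

/-- the number of constrained cocycles of a piece of the given kind -/
def Kind.bound (r : ℕ) : Kind → ℕ
  | .eGood => 1
  | .eDefect => r
  | .mGood => r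
  | .mDefect => r ^ 2

end Fermat.Agent.S15lib.SEL
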