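/-
S15lib / SEL / BaseE (helper6).  Project E, block SEL: the base cases for ÉTALE-tag pieces.

* `addChar_eq_zero_of_unram`  (E-good): a continuous additive character of `G_ℚ` unramified at
  every prime is zero (Minkowski, from `S13lib.monoidHom_eq_one_of_unramified`).
* `addChar_card_le`           (E-defect): the continuous characters `G_ℚ → ZMod r` unramified outside
  a prime `N ≠ r` form a set of at most `r` elements (tame inertia at `N` is cyclic,
  `S56lib.Tame.exists_inertia_generator`, + transitivity of `G_ℚ` on the places over `N`).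
-/
import Mathlib
import Fermat.Agent.S15lib.SEL.Defs
import Fermat.Agent.S13lib.UnramTop
import Fermat.Agent.S56lib.Tame.Main
import Fermat.Agent.S56lib.TWSel.Places
import Fermat.Agent.S55lib.Iface.RamBridge

set_option autoImplicit false
set_option linter.style.haveILetI false
set_option linter.unusedSectionVars false

noncomputable section

namespace Fermat.Agent.S15lib.SEL

open scoped Pointwise

local notation "Ω" => AlgebraicClosure ℚ
local notation "Γ" => (AlgebraicClosure ℚ ≃ₐ[ℚ] AlgebraicClosure ℚ)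

section

variable {Q : Type*} [AddCommGroup Q]

theorem IsAddChar.map_one {χ : Γ → Q} (hχ : IsAddChar χ) : χ 1 = 0 := by
  have h := hχ.1 1 1
  rw [mul_one] at h
  exact left_eq_add.mp h

/-- the multiplicative version of an additive character -/
def IsAddChar.toMonoidHom {χ : Γ → Q} (hχ : IsAddChar χ) : Γ →* Multiplicative Q where
  toFun g := Multiplicative.ofAdd (χ g)
  map_one' := by rw [hχ.map_one]; rfl
  map_mul' g h := by rw [hχ.1 g h]; rfl

theorem IsAddChar.toMonoidHom_apply {χ : Γ → Q} (hχ : IsAddChar χ) (g : Γ) :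
    hχ.toMonoidHom g = Multiplicative.ofAdd (χ g) := rfl

theorem IsAddChar.exists_level {χ : Γ → Q} (hχ : IsAddChar χ) :
    ∃ F : IntermediateField ℚ Ω, FiniteDimensional ℚ F ∧ ∀ s ∈ F.fixingSubgroup, χ s = 0 := by
  obtain ⟨F, hF, h⟩ := hχ.2
  refine ⟨F, hF, fun s hs => ?_⟩
  have := h 1 s hs
  rwa [one_mul, hχ.map_one] at this

theorem IsAddChar.isOpen_ker {χ : Γ → Q} (hχ : IsAddChar χ) :
    IsOpen (hχ.toMonoidHom.ker : Set Γ) := by
  obtain ⟨F, hF, h⟩ := hχ.exists_level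
  haveI := hF
  have hle : F.fixingSubgroup ≤ hχ.toMonoidHom.ker := by
    intro s hs
    rw [MonoidHom.mem_ker, hχ.toMonoidHom_apply, h s hs]
    rfl
  exact Subgroup.isOpen_mono hle (IntermediateField.fixingSubgroup_isOpen F)

/-- **(E-good)**: a continuous additive character unramified at every prime is zero. -/
theorem addChar_eq_zero_of_unram (χ : Γ → Q) (hχ : IsAddChar χ)
    (hur : ∀ ℓ : ℕ, ℓ.Prime → AddUnramAt ℓ χ) : χ = 0 := by
  funext σ
  have h := Fermat.Agent.S13lib.monoidHom_eq_one_of_unramified hχ.toMonoidHom hχ.isOpen_ker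
    (fun ℓ hℓ A hA τ hτ => by
      rw [hχ.toMonoidHom_apply, hur ℓ hℓ A hA τ hτ]
      rfl) σ
  rw [hχ.toMonoidHom_apply] at h
  exact Multiplicative.ofAdd.injective h

theorem IsAddChar.add {χ χ' : Γ → Q} (hχ : IsAddChar χ) (hχ' : IsAddChar χ') :
    IsAddChar (χ + χ') := by
  refine ⟨fun g h => ?_, ?_⟩
  · simp only [Pi.add_apply, hχ.1 g h, hχ'.1 g h]
    abel
  · obtain ⟨F, hF, h⟩ := hχ.2
    obtain ⟨F', hF', h'⟩ := hχ'.2
    haveI := hF
    haveI := hF'
    refine ⟨F ⊔ F', IntermediateField.finiteDimensional_sup F F', fun g s hs => ?_⟩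
    simp only [Pi.add_apply]
    rw [h g s (IntermediateField.fixingSubgroup_antitone le_sup_left hs),
      h' g s (IntermediateField.fixingSubgroup_antitone le_sup_right hs)]

end

section ZMod

variable {r : ℕ}

theorem IsAddChar.smul {χ : Γ → ZMod r} (hχ : IsAddChar χ) (a : ZMod r) :
    IsAddChar (fun g => a * χ g) := by
  refine ⟨fun g h => ?_, ?_⟩
  · show a * χ (g * h) = a * χ g + a * χ h
    rw [hχ.1 g h, mul_add]
  · obtain ⟨F, hF, h⟩ := hχ.2
    exact ⟨F, hF, fun g s hs => by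
      show a * χ (g * s) = a * χ g
      rw [h g s hs]⟩

/-- the inertia groups over `N` are conjugate: a character vanishing on one of them vanishes on
all of them -/
theorem addUnramAt_of_one {Q : Type*} [AddCommGroup Q] {N : ℕ} (hN : N.Prime) {χ : Γ → Q}
    (hχ : IsAddChar χ)
    {A₀ : ValuationSubring Ω} (hA₀ : A₀.LiesOverPrime N)
    (h0 : ∀ σ ∈ A₀.inertiaSubgroupIn ℚ, χ σ = 0) : AddUnramAt N χ := by
  intro A hA σ hσ
  obtain ⟨g, rfl⟩ := Fermat.Agent.S56lib.TWSel.exists_smul_eq_of_liesOverPrime hN hA₀ hA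
  -- `g⁻¹ σ g ∈ I_{A₀}`
  have h1 : g⁻¹ * σ * g⁻¹⁻¹ ∈ (g⁻¹ • (g • A₀)).inertiaSubgroupIn ℚ :=
    Fermat.Agent.S56lib.TWSel.conj_mem_inertia hσ
  rw [inv_smul_smul, inv_inv] at h1
  have h2 := h0 _ h1
  rw [hχ.1, hχ.1] at h2
  have h3 : χ g⁻¹ + χ g = 0 := by
    rw [← hχ.1, inv_mul_cancel, hχ.map_one]
  have : χ σ = χ g⁻¹ + χ σ + χ g - (χ g⁻¹ + χ g) := by abel
  rw [this, h2, h3, sub_zero]

variable [hr : Fact r.Prime]

/-- two continuous characters `Γ → ZMod r` unramified outside the prime `N ≠ r` are linearly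
dependent. -/
theorem exists_dependence {N : ℕ} (hN : N.Prime) (hrN : r ≠ N) {χ₁ χ₂ : Γ → ZMod r}
    (h₁ : IsAddChar χ₁) (h₂ : IsAddChar χ₂)
    (hu₁ : ∀ ℓ : ℕ, ℓ.Prime → ℓ ≠ N → AddUnramAt ℓ χ₁)
    (hu₂ : ∀ ℓ : ℕ, ℓ.Prime → ℓ ≠ N → AddUnramAt ℓ χ₂) :
    ∃ a b : ZMod r, (a ≠ 0 ∨ b ≠ 0) ∧ ∀ g, a * χ₁ g + b * χ₂ g = 0 := by
  haveI : Fact N.Prime := ⟨hN⟩
  set A₀ : ValuationSubring Ω := padicPlace N with hA₀def
  have hA₀ : A₀.LiesOverPrime N := Fermat.Agent.S55lib.padicPlace_liesOverPrime N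
  -- the pair `(χ₁, χ₂)` as a homomorphism to a monoid
  let f : Γ →* Multiplicative (ZMod r) × Multiplicative (ZMod r) :=
    h₁.toMonoidHom.prod h₂.toMonoidHom
  have hf : ∃ L : IntermediateField ℚ Ω, FiniteDimensional ℚ L ∧
      ∀ σ : Γ, (∀ x ∈ L, σ x = x) → f σ = 1 := by
    obtain ⟨F, hF, h⟩ := h₁.exists_level
    obtain ⟨F', hF', h'⟩ := h₂.exists_level
    haveI := hF
    haveI := hF'
    refine ⟨F ⊔ F', IntermediateField.finiteDimensional_sup F F', fun σ hσ => ?_⟩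
    have hσ' : σ ∈ (F ⊔ F').fixingSubgroup :=
      (IntermediateField.mem_fixingSubgroup_iff _ σ).mpr hσ
    have e1 : χ₁ σ = 0 := h σ (IntermediateField.fixingSubgroup_antitone le_sup_left hσ')
    have e2 : χ₂ σ = 0 := h' σ (IntermediateField.fixingSubgroup_antitone le_sup_right hσ')
    show (h₁.toMonoidHom σ, h₂.toMonoidHom σ) = 1
    rw [h₁.toMonoidHom_apply, h₂.toMonoidHom_apply, e1, e2]
    rfl
  have hpgrp : ∀ σ ∈ A₀.inertiaSubgroupIn ℚ, ∃ n : ℕ, f σ ^ r ^ n = 1 := by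
    intro σ _
    refine ⟨1, ?_⟩
    rw [pow_one]
    show (h₁.toMonoidHom σ ^ r, h₂.toMonoidHom σ ^ r) = 1
    rw [h₁.toMonoidHom_apply, h₂.toMonoidHom_apply, ← ofAdd_nsmul, ← ofAdd_nsmul]
    simp
  obtain ⟨τ, hτ, hgen⟩ := Fermat.Agent.S56lib.Tame.exists_inertia_generator hN hA₀ f hf
    hr.out hrN hpgrp
  -- coefficients
  set u₁ := χ₁ τ with hu1
  set u₂ := χ₂ τ with hu2
  -- on the inertia group `I_{A₀}` the pair is a multiple of `(u₁, u₂)`
  have hmult : ∀ σ ∈ A₀.inertiaSubgroupIn ℚ, ∃ j : ℕ, χ₁ σ = j • u₁ ∧ χ₂ σ = j • u₂ := by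
    intro σ hσ
    obtain ⟨j, hj⟩ := hgen σ hσ
    refine ⟨j, ?_, ?_⟩
    · have := congrArg Prod.fst hj
      simp only [f, MonoidHom.prod_apply, Prod.pow_fst] at this
      rw [h₁.toMonoidHom_apply, h₁.toMonoidHom_apply, ← ofAdd_nsmul] at this
      exact Multiplicative.ofAdd.injective this
    · have := congrArg Prod.snd hj
      simp only [f, MonoidHom.prod_apply, Prod.pow_snd] at this
      rw [h₂.toMonoidHom_apply, h₂.toMonoidHom_apply, ← ofAdd_nsmul] at this
      exact Multiplicative.ofAdd.injective this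
  -- choose the coefficients
  obtain ⟨a, b, hab, hrel⟩ : ∃ a b : ZMod r, (a ≠ 0 ∨ b ≠ 0) ∧ a * u₁ + b * u₂ = 0 := by
    by_cases h0 : u₁ = 0 ∧ u₂ = 0
    · exact ⟨1, 0, Or.inl one_ne_zero, by rw [h0.1, h0.2]; ring⟩
    · refine ⟨u₂, -u₁, ?_, by ring⟩
      by_contra hcon
      push Not at hcon
      exact h0 ⟨neg_eq_zero.mp hcon.2, hcon.1⟩
  refine ⟨a, b, hab, ?_⟩
  -- the combination is a character unramified everywhere
  have hχ : IsAddChar (fun g => a * χ₁ g + b * χ₂ g) := (h₁.smul a).add (h₂.smul b)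
  have hzero := addChar_eq_zero_of_unram _ hχ (fun ℓ hℓ => by
    by_cases hℓN : ℓ = N
    · subst hℓN
      apply addUnramAt_of_one hℓ hχ hA₀
      intro σ hσ
      obtain ⟨j, e1, e2⟩ := hmult σ hσ
      show a * χ₁ σ + b * χ₂ σ = 0
      rw [e1, e2, nsmul_eq_mul, nsmul_eq_mul]
      calc a * ((j : ZMod r) * u₁) + b * ((j : ZMod r) * u₂)
          = (j : ZMod r) * (a * u₁ + b * u₂) := by ring
        _ = 0 := by rw [hrel, mul_zero]
    · intro A hA σ hσ
      show a * χ₁ σ + b * χ₂ σ = 0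
      rw [hu₁ ℓ hℓ hℓN A hA σ hσ, hu₂ ℓ hℓ hℓN A hA σ hσ]
      ring)
  intro g
  exact congrFun hzero g

/-- **(E-defect)**: the continuous characters `Γ → ZMod r` unramified outside the prime `N ≠ r`
form a finite set of at most `r` elements. -/
theorem addChar_card_le {N : ℕ} (hN : N.Prime) (hrN : r ≠ N) :
    {χ : Γ → ZMod r | IsAddChar χ ∧ ∀ ℓ : ℕ, ℓ.Prime → ℓ ≠ N → AddUnramAt ℓ χ}.Finite ∧
    {χ : Γ → ZMod r | IsAddChar χ ∧ ∀ ℓ : ℕ, ℓ.Prime → ℓ ≠ N → AddUnramAt ℓ χ}.ncard ≤ r := by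
  set S := {χ : Γ → ZMod r | IsAddChar χ ∧ ∀ ℓ : ℕ, ℓ.Prime → ℓ ≠ N → AddUnramAt ℓ χ} with hS
  haveI : NeZero r := ⟨hr.out.ne_zero⟩
  by_cases hS0 : ∀ χ ∈ S, χ = 0
  · have hsub : S ⊆ {0} := fun χ hχ => Set.mem_singleton_iff.mpr (hS0 χ hχ)
    refine ⟨(Set.finite_singleton _).subset hsub, ?_⟩
    calc S.ncard ≤ ({0} : Set (Γ → ZMod r)).ncard := Set.ncard_le_ncard hsub (Set.finite_singleton _)
      _ = 1 := Set.ncard_singleton _
      _ ≤ r := hr.out.one_lt.le
  · push Not at hS0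
    obtain ⟨χ₀, hχ₀S, hχ₀⟩ := hS0
    -- every element is a multiple of `χ₀`
    have hsub : S ⊆ Set.range (fun a : ZMod r => fun g => a * χ₀ g) := by
      intro χ hχ
      obtain ⟨a, b, hab, hrel⟩ := exists_dependence hN hrN hχ₀S.1 hχ.1 hχ₀S.2 hχ.2
      have hb : b ≠ 0 := by
        intro hb0
        rcases hab with ha | hb'
        · apply hχ₀
          funext g
          have := hrel g
          rw [hb0, zero_mul, add_zero] at this
          exact (mul_eq_zero.mp this).resolve_left ha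
        · exact hb' hb0
      refine ⟨-(b⁻¹ * a), ?_⟩
      funext g
      have := hrel g
      have h2 : b * χ g = -(a * χ₀ g) := eq_neg_of_add_eq_zero_right this
      calc -(b⁻¹ * a) * χ₀ g = b⁻¹ * (-(a * χ₀ g)) := by ring
        _ = b⁻¹ * (b * χ g) := by rw [h2]
        _ = χ g := by rw [← mul_assoc, inv_mul_cancel₀ hb, one_mul]
    have hfin : (Set.range (fun a : ZMod r => fun g : Γ => a * χ₀ g)).Finite := Set.finite_range _
    refine ⟨hfin.subset hsub, ?_⟩
    calc S.ncard ≤ (Set.range (fun a : ZMod r => fun g : Γ => a * χ₀ g)).ncard :=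
          Set.ncard_le_ncard hsub hfin
      _ ≤ Nat.card (ZMod r) := by
          rw [← Set.image_univ]
          calc (Set.image (fun a : ZMod r => fun g : Γ => a * χ₀ g) Set.univ).ncard
              ≤ (Set.univ : Set (ZMod r)).ncard := Set.ncard_image_le Set.finite_univ
            _ = Nat.card (ZMod r) := Set.ncard_univ _
      _ = r := Nat.card_zmod r

end ZMod

end Fermat.Agent.S15lib.SEL
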