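/-
S15lib / SEL / H90 (helper6).  Project E, block SEL: Hilbert 90 for continuous `μ_r`-valued
cocycles of `G_ℚ`.

`ψ : Γ → ℚ̄` with `ψ (g h) = ψ g * g (ψ h)`, `ψ g ^ r = 1`, level-constant.  Then there is
`β ∈ ℚ̄ˣ` with `g β = ψ g * β` for all `g`, and `β ^ r ∈ ℚ`.  (Descend to a finite Galois level
`L ⊇ μ_r` and apply Mathlib's Noether form of Hilbert 90.)
-/
import Mathlib
import Fermat.Agent.S15lib.SEL.Defs
import Fermat.Agent.S55lib.Iface.Unr

set_option autoImplicit false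
set_option linter.style.haveILetI false
set_option linter.unusedSectionVars false

noncomputable section

namespace Fermat.Agent.S15lib.SEL

local notation "Ω" => AlgebraicClosure ℚ
local notation "Γ" => (AlgebraicClosure ℚ ≃ₐ[ℚ] AlgebraicClosure ℚ)

variable {r : ℕ}

theorem IsMuCocycle.ne_zero {ψ : Γ → Ω} (hψ : IsMuCocycle r ψ) (hr : r ≠ 0) (g : Γ) : ψ g ≠ 0 := by
  intro h0
  have := hψ.2.1 g
  rw [h0, zero_pow hr] at this
  exact zero_ne_one this

theorem IsMuCocycle.map_one {ψ : Γ → Ω} (hψ : IsMuCocycle r ψ) (hr : r ≠ 0) : ψ 1 = 1 := by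
  have h := hψ.1 1 1
  rw [mul_one, AlgEquiv.one_apply] at h
  have h0 := hψ.ne_zero hr 1
  exact (mul_right_cancel₀ h0 (by rw [one_mul]; exact h)).symm

/-- **Hilbert 90** for continuous `μ_r`-valued cocycles of `G_ℚ`. -/
theorem IsMuCocycle.exists_eigen [NeZero r] {ψ : Γ → Ω} (hψ : IsMuCocycle r ψ) :
    ∃ β : Ω, β ≠ 0 ∧ ∀ g : Γ, g β = ψ g * β := by
  have hr : r ≠ 0 := NeZero.ne r
  obtain ⟨hc, hpow, F, hF, hlev⟩ := hψ
  haveI := hF
  obtain ⟨ζ, hζ⟩ := HasEnoughRootsOfUnity.exists_primitiveRoot Ω r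
  have hζint : IsIntegral ℚ ζ := (hζ.isIntegral (Nat.pos_of_ne_zero hr)).tower_top
  haveI : FiniteDimensional ℚ (IntermediateField.adjoin ℚ {ζ}) :=
    IntermediateField.adjoin.finiteDimensional hζint
  set F₁ : IntermediateField ℚ Ω := F ⊔ IntermediateField.adjoin ℚ {ζ} with hF₁
  haveI : FiniteDimensional ℚ F₁ := IntermediateField.finiteDimensional_sup _ _
  set L : IntermediateField ℚ Ω := Fermat.Agent.S55lib.galClosure F₁ with hL
  haveI : Normal ℚ L := Fermat.Agent.S55lib.normal_galClosure F₁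
  haveI : FiniteDimensional ℚ L := Fermat.Agent.S55lib.finiteDimensional_galClosure F₁
  have hF₁L : F₁ ≤ L := Fermat.Agent.S55lib.le_galClosure F₁
  have hFL : F ≤ L := le_trans le_sup_left hF₁L
  have hζL : ζ ∈ L :=
    hF₁L (le_sup_right (a := F) (IntermediateField.mem_adjoin_simple_self ℚ ζ))
  have hψne : ∀ g, ψ g ≠ 0 := fun g h0 => by
    have := hpow g
    rw [h0, zero_pow hr] at this
    exact zero_ne_one this
  have hval : ∀ g, ψ g ∈ L := by
    intro g
    obtain ⟨i, -, hi⟩ := hζ.eq_pow_of_pow_eq_one (hpow g)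
    rw [← hi]
    exact pow_mem hζL i
  -- restriction to `L`
  have hcomm : ∀ (g : Γ) (x : Ω) (hx : x ∈ L),
      ((AlgEquiv.restrictNormalHom L g ⟨x, hx⟩ : L) : Ω) = g x :=
    fun g x hx => AlgEquiv.restrictNormal_commutes g L ⟨x, hx⟩
  have hkey : ∀ g g' : Γ, AlgEquiv.restrictNormalHom L g = AlgEquiv.restrictNormalHom L g' →
      ψ g = ψ g' := by
    intro g g' h
    have hs : g⁻¹ * g' ∈ F.fixingSubgroup := by
      rw [IntermediateField.mem_fixingSubgroup_iff]
      intro x hx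
      have hx' : x ∈ L := hFL hx
      have e1 : g x = g' x := by
        rw [← hcomm g x hx', ← hcomm g' x hx', h]
      rw [AlgEquiv.mul_apply, ← e1]
      exact AlgEquiv.symm_apply_apply g x
    have := hlev g (g⁻¹ * g') hs
    rw [mul_inv_cancel_left] at this
    exact this.symm
  have hsurj : Function.Surjective (AlgEquiv.restrictNormalHom L : Γ → (L ≃ₐ[ℚ] L)) :=
    AlgEquiv.restrictNormalHom_surjective Ω
  let lift : (L ≃ₐ[ℚ] L) → Γ := Function.surjInv hsurj
  have hlift : ∀ gb, AlgEquiv.restrictNormalHom L (lift gb) = gb := Function.surjInv_eq hsurj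
  -- the cocycle on the finite level
  let f : (L ≃ₐ[ℚ] L) → Lˣ := fun gb =>
    Units.mk0 ⟨ψ (lift gb), hval _⟩ (fun h0 => hψne (lift gb) (congrArg Subtype.val h0))
  have hf : groupCohomology.IsMulCocycle₁ f := by
    intro gb hb
    apply Units.ext
    apply Subtype.ext
    show ψ (lift (gb * hb)) = ((gb • f hb : Lˣ) : L) * ψ (lift gb)
    have e1 : ψ (lift (gb * hb)) = ψ (lift gb * lift hb) := by
      apply hkey
      rw [hlift, map_mul, hlift, hlift]
    rw [e1, hc, mul_comm]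
    congr 1
    have e2 : ((gb • f hb : Lˣ) : L) = gb ⟨ψ (lift hb), hval _⟩ := rfl
    rw [e2, ← hcomm (lift gb) _ (hval _), hlift]
  obtain ⟨β', hβ'⟩ := groupCohomology.isMulCoboundary₁_of_isMulCocycle₁_of_aut_to_units f hf
  refine ⟨((β' : L) : Ω), ?_, fun g => ?_⟩
  · intro h0
    have : (β' : L) = 0 := Subtype.ext h0
    exact β'.ne_zero this
  · have h1 := hβ' (AlgEquiv.restrictNormalHom L g)
    have h2 : (AlgEquiv.restrictNormalHom L g • β' : Lˣ) = f (AlgEquiv.restrictNormalHom L g) * β' := by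
      rw [← h1, div_mul_cancel]
    have h3 := congrArg (fun u : Lˣ => ((u : L) : Ω)) h2
    simp only [Units.val_mul, MulMemClass.coe_mul] at h3
    have h4 : (((AlgEquiv.restrictNormalHom L g • β' : Lˣ) : L) : Ω) = g ((β' : L) : Ω) := by
      have : ((AlgEquiv.restrictNormalHom L g • β' : Lˣ) : L)
          = AlgEquiv.restrictNormalHom L g (β' : L) := rfl
      rw [this]
      exact hcomm g _ (β' : L).2
    rw [h4] at h3
    rw [h3]
    congr 1
    show ψ (lift (AlgEquiv.restrictNormalHom L g)) = ψ g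
    apply hkey
    rw [hlift]

/-- an element of `ℚ̄` fixed by the whole Galois group is rational -/
theorem exists_rat_of_fixed {x : Ω} (hx : ∀ g : Γ, g x = x) : ∃ q : ℚ, (q : Ω) = x := by
  have h1 : x ∈ IntermediateField.fixedField (⊤ : Subgroup Γ) := by
    rw [IntermediateField.mem_fixedField_iff]
    exact fun g _ => hx g
  have h2 : IntermediateField.fixedField (⊤ : Subgroup Γ) = ⊥ := by
    rw [← IntermediateField.fixingSubgroup_bot, InfiniteGalois.fixedField_fixingSubgroup]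
  rw [h2, IntermediateField.mem_bot] at h1
  obtain ⟨q, hq⟩ := h1
  exact ⟨q, by rw [← hq]; rfl⟩

/-- Hilbert 90 with the rationality of `β ^ r`. -/
theorem IsMuCocycle.exists_eigen_rat [NeZero r] {ψ : Γ → Ω} (hψ : IsMuCocycle r ψ) :
    ∃ (β : Ω) (q : ℚ), β ≠ 0 ∧ q ≠ 0 ∧ (∀ g : Γ, g β = ψ g * β) ∧ β ^ r = (q : Ω) := by
  obtain ⟨β, hβ0, hβ⟩ := hψ.exists_eigen
  obtain ⟨q, hq⟩ := exists_rat_of_fixed (x := β ^ r) (fun g => by
    rw [map_pow, hβ g, mul_pow, hψ.2.1 g, one_mul])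
  refine ⟨β, q, hβ0, ?_, hβ, hq.symm⟩
  rintro rfl
  rw [Rat.cast_zero] at hq
  exact hβ0 (pow_eq_zero_iff (NeZero.ne r) |>.mp hq.symm)

end Fermat.Agent.S15lib.SEL
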