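/-
S15lib / SEL / NT (helper6).  Project E, block SEL: elementary number theory for the Kummer
generators.

* `exists_eq_pow_mul_pow` : a positive integer all of whose prime exponents, except possibly at `N`,
  are divisible by `r` is `N ^ a * e ^ r`;
* `val_natCast_eq_pow_factorization` : the valuation of a natural number at a valuation ring over `ℓ`;
* `natAbs_eq_pow_mul_pow_of_valuation` : if `β ^ r = m ∈ ℤ ∖ {0}` and the valuation of `β` at one
  valuation ring over every prime `ℓ ≠ N` lies in `v(ℓ)^ℤ`, then `|m| = N ^ a * e ^ r`.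
-/
import Mathlib
import Fermat.Agent.S56lib.Tame.Discrete

set_option autoImplicit false
set_option linter.unusedSectionVars false

namespace Fermat.Agent.S15lib.SEL

/-- a positive integer whose prime exponents away from `N` are divisible by `r` is of the form
`N ^ a * e ^ r` (`N` arbitrary; `N = 1` gives the perfect `r`-th powers) -/
theorem exists_eq_pow_mul_pow {r : ℕ} (hr : r ≠ 0) (N : ℕ) :
    ∀ m : ℕ, m ≠ 0 → (∀ ℓ : ℕ, ℓ.Prime → ℓ ≠ N → r ∣ m.factorization ℓ) →
      ∃ a e : ℕ, e ≠ 0 ∧ m = N ^ a * e ^ r := by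
  intro m
  induction m using Nat.strong_induction_on with
  | _ m ih =>
    intro hm hdiv
    by_cases hm1 : m = 1
    · exact ⟨0, 1, one_ne_zero, by rw [hm1, pow_zero, one_pow, one_mul]⟩
    · set ℓ := m.minFac with hℓdef
      have hℓ : ℓ.Prime := Nat.minFac_prime hm1
      have hℓm : ℓ ∣ m := Nat.minFac_dvd m
      by_cases hℓN : ℓ = N
      · obtain ⟨m', hm'⟩ := hℓm
        have hm'0 : m' ≠ 0 := by
          rintro rfl
          exact hm (by rw [hm', mul_zero])
        have hlt : m' < m := by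
          rw [hm']
          exact lt_mul_of_one_lt_left (Nat.pos_of_ne_zero hm'0) hℓ.one_lt
        obtain ⟨a, e, he, hae⟩ := ih m' hlt hm'0 (fun ℓ' hℓ' hℓ'N => by
          have h1 := hdiv ℓ' hℓ' hℓ'N
          rw [hm', Nat.factorization_mul hℓ.ne_zero hm'0, Finsupp.add_apply,
            hℓ.factorization, Finsupp.single_apply, if_neg (by rw [hℓN]; exact fun h => hℓ'N h.symm),
            zero_add] at h1
          exact h1)
        exact ⟨a + 1, e, he, by rw [hm', hae, hℓN, pow_succ]; ring⟩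
      · have h1 := hdiv ℓ hℓ hℓN
        have hpos : 0 < m.factorization ℓ := hℓ.factorization_pos_of_dvd hm hℓm
        have hle : r ≤ m.factorization ℓ := Nat.le_of_dvd hpos h1
        have hdvd : ℓ ^ r ∣ m := (hℓ.pow_dvd_iff_le_factorization hm).mpr hle
        obtain ⟨m', hm'⟩ := hdvd
        have hm'0 : m' ≠ 0 := by
          rintro rfl
          exact hm (by rw [hm', mul_zero])
        have hℓr : 1 < ℓ ^ r := Nat.one_lt_pow hr hℓ.one_lt
        have hlt : m' < m := by
          rw [hm']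
          exact lt_mul_of_one_lt_left (Nat.pos_of_ne_zero hm'0) hℓr
        obtain ⟨a, e, he, hae⟩ := ih m' hlt hm'0 (fun ℓ' hℓ' hℓ'N => by
          have h2 := hdiv ℓ' hℓ' hℓ'N
          rw [hm', Nat.factorization_mul (pow_ne_zero _ hℓ.ne_zero) hm'0, Finsupp.add_apply,
            Nat.factorization_pow, Finsupp.smul_apply, smul_eq_mul] at h2
          exact (Nat.dvd_add_right (dvd_mul_right r _)).mp h2)
        exact ⟨a, ℓ * e, mul_ne_zero hℓ.ne_zero he, by rw [hm', hae, mul_pow]; ring⟩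

open Fermat.Agent.S56lib.Tame Fermat.Agent.S05lib in
/-- the valuation of a natural number at a valuation ring over the prime `q` -/
theorem val_natCast_eq_pow_factorization {Ω : Type*} [Field Ω] [CharZero Ω]
    {P : ValuationSubring Ω} {q : ℕ} (hq : q.Prime) (hP : P.LiesOverPrime q) {m : ℕ} (hm : m ≠ 0) :
    P.valuation (m : Ω) = P.valuation (q : Ω) ^ (m.factorization q) := by
  obtain ⟨e, m', hm', rfl⟩ := Nat.exists_eq_pow_mul_and_not_dvd hm q hq.ne_one
  have hm'0 : m' ≠ 0 := by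
    rintro rfl
    exact hm' (dvd_zero q)
  have hfac : (q ^ e * m').factorization q = e := by
    rw [Nat.factorization_mul (pow_ne_zero _ hq.ne_zero) hm'0, Finsupp.add_apply,
      Nat.factorization_pow, Finsupp.smul_apply, hq.factorization, Finsupp.single_eq_same,
      smul_eq_mul, mul_one, Nat.factorization_eq_zero_of_not_dvd hm', add_zero]
  rw [hfac]
  push_cast
  rw [map_mul, map_pow, val_natCast_eq_one_of_not_dvd hq hP hm', mul_one]

open Fermat.Agent.S56lib.Tame in
/-- if `β ^ r = m ∈ ℤ ∖ {0}` and, for every prime `ℓ ≠ N`, the valuation of `β` at SOME valuation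
ring over `ℓ` lies in `v(ℓ)^ℤ`, then `|m| = N ^ a * e ^ r` -/
theorem natAbs_eq_pow_mul_pow_of_valuation {Ω : Type*} [Field Ω] [CharZero Ω] {r : ℕ} (hr : r ≠ 0)
    (N : ℕ) {β : Ω} {m : ℤ} (hm : m ≠ 0) (hβ : β ^ r = (m : Ω))
    (hval : ∀ ℓ : ℕ, ℓ.Prime → ℓ ≠ N → ∃ A : ValuationSubring Ω, A.LiesOverPrime ℓ ∧
      ∃ n : ℤ, A.valuation β = A.valuation (ℓ : Ω) ^ n) :
    ∃ a e : ℕ, e ≠ 0 ∧ m.natAbs = N ^ a * e ^ r := by
  have hm' : m.natAbs ≠ 0 := Int.natAbs_ne_zero.mpr hm
  refine exists_eq_pow_mul_pow hr N m.natAbs hm' (fun ℓ hℓ hℓN => ?_)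
  obtain ⟨A, hA, n, hn⟩ := hval ℓ hℓ hℓN
  have h1 : A.valuation (m : Ω) = A.valuation ((m.natAbs : ℕ) : Ω) := by
    rcases Int.natAbs_eq m with h | h
    · conv_lhs => rw [h]
      simp
    · conv_lhs => rw [h]
      simp
  have h2 : A.valuation (ℓ : Ω) ^ (n * r) = A.valuation (ℓ : Ω) ^ ((m.natAbs.factorization ℓ : ℕ) : ℤ) := by
    rw [zpow_natCast, ← val_natCast_eq_pow_factorization hℓ hA hm', ← h1, ← hβ, map_pow, hn,
      zpow_mul, zpow_natCast]
  have h0 : 0 < A.valuation (ℓ : Ω) := val_q_pos hℓ hA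
  have hne1 : A.valuation (ℓ : Ω) ≠ 1 := val_q_ne_one hℓ hA
  have h3 : n * r = ((m.natAbs.factorization ℓ : ℕ) : ℤ) := zpow_right_injective₀ h0 hne1 h2
  have h4 : (r : ℤ) ∣ ((m.natAbs.factorization ℓ : ℕ) : ℤ) := ⟨n, by rw [← h3, mul_comm]⟩
  exact Int.natCast_dvd_natCast.mp h4

end Fermat.Agent.S15lib.SEL
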