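/-
S15lib / SEL / VG (helper6).  Project E, block SEL: the value group of the inertia-fixed elements.

`A` a valuation subring of `ℚ̄` over the prime `ℓ`, `x ≠ 0` fixed by the inertia group `I_A`.  Then
`A.valuation x = A.valuation ℓ ^ n` for some `n : ℤ` (the inertia field is unramified).  Route: conjugate
`A` to `padicPlace ℓ`, embed in `ℚ̄_ℓ`, the image lies in `ℚ_ℓ^{nr}` whose value group is `ℓ^ℤ`
(`S55lib.unramAt_nrField`).
-/
import Mathlib
import Fermat.Agent.S15lib.SEL.Defs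
import Fermat.Agent.S56lib.TWSel.Places
import Fermat.Agent.S56lib.Tame.Discrete
import Fermat.Agent.S55lib.Iface.RamBridge

set_option autoImplicit false
set_option linter.style.haveILetI false
set_option linter.unusedSectionVars false

noncomputable section

namespace Fermat.Agent.S15lib.SEL

open scoped Pointwise

local notation "Ω" => AlgebraicClosure ℚ
local notation "Γ" => (AlgebraicClosure ℚ ≃ₐ[ℚ] AlgebraicClosure ℚ)

/-- for `x ≠ 0`: `A.valuation x = 1` iff `x` and `x⁻¹` lie in `A` -/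
theorem valuation_eq_one_iff_mem {A : ValuationSubring Ω} {x : Ω} (hx : x ≠ 0) :
    A.valuation x = 1 ↔ x ∈ A ∧ x⁻¹ ∈ A := by
  rw [← A.valuation_le_one_iff, ← A.valuation_le_one_iff, map_inv₀]
  have h0 : A.valuation x ≠ 0 := (A.valuation.ne_zero_iff).mpr hx
  constructor
  · intro h
    rw [h, inv_one]
    exact ⟨le_refl _, le_refl _⟩
  · rintro ⟨h1, h2⟩
    refine le_antisymm h1 ?_
    by_contra hcon
    rw [not_le] at hcon
    have : 1 < (A.valuation x)⁻¹ := (one_lt_inv₀ (zero_lt_iff.mpr h0)).mpr hcon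
    exact absurd h2 (not_le.mpr this)

/-- the local statement at `padicPlace ℓ` -/
theorem exists_valuation_eq_zpow_padicPlace (ℓ : ℕ) [Fact ℓ.Prime] {x : Ω} (hx0 : x ≠ 0)
    (hx : ∀ σ ∈ (padicPlace ℓ).inertiaSubgroupIn ℚ, σ x = x) :
    ∃ n : ℤ, (padicPlace ℓ).valuation x = (padicPlace ℓ).valuation (ℓ : Ω) ^ n := by
  have hℓ : ℓ.Prime := Fact.out
  -- the image of `x` lies in `ℚ_ℓ^{nr}`
  have hmem : padicEmbedding ℓ x ∈ Fermat.Agent.S55lib.nrField ℓ := by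
    rw [← InfiniteGalois.fixedField_fixingSubgroup (Fermat.Agent.S55lib.nrField ℓ),
      IntermediateField.mem_fixedField_iff]
    intro d hd
    have hin := Fermat.Agent.S55lib.localGaloisToGlobal_mem_inertia ℓ
      (Fermat.Agent.S55lib.fixesTame_of_mem_fixingSubgroup ℓ hd)
    rw [← padicEmbedding_localGaloisToGlobal, hx _ hin]
  have hne : padicEmbedding ℓ x ≠ 0 := (_root_.map_ne_zero _).2 hx0
  obtain ⟨m, hm⟩ := Fermat.Agent.S55lib.unramAt_nrField ℓ _ hmem hne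
  -- `y = x * ℓ ^ m` is a unit
  have hℓ0 : (ℓ : Ω) ≠ 0 := Nat.cast_ne_zero.mpr hℓ.ne_zero
  have hℓR : (ℓ : ℝ) ≠ 0 := Nat.cast_ne_zero.mpr hℓ.ne_zero
  set y : Ω := x * (ℓ : Ω) ^ m with hy
  have hnormℓ : ‖padicEmbedding ℓ ((ℓ : Ω) ^ m)‖ = ((ℓ : ℝ) ^ m)⁻¹ := by
    rw [map_zpow₀, map_natCast, norm_zpow, Fermat.Agent.S55lib.FirstIneq.norm_natCast_padicAlgCl,
      inv_zpow]
  have hnormy : ‖padicEmbedding ℓ y‖ = 1 := by
    rw [hy, map_mul, norm_mul, hm, hnormℓ]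
    exact mul_inv_cancel₀ (zpow_ne_zero _ hℓR)
  have hy0 : y ≠ 0 := mul_ne_zero hx0 (zpow_ne_zero _ hℓ0)
  have hy1 : (padicPlace ℓ).valuation y = 1 := by
    rw [valuation_eq_one_iff_mem hy0, Fermat.Agent.S55lib.mem_padicPlace_iff_norm,
      Fermat.Agent.S55lib.mem_padicPlace_iff_norm, map_inv₀, norm_inv, hnormy, inv_one]
    exact ⟨le_refl _, le_refl _⟩
  refine ⟨-m, ?_⟩
  have hx' : x = y * (ℓ : Ω) ^ (-m) := by
    rw [hy, mul_assoc, ← zpow_add₀ hℓ0, add_neg_cancel, zpow_zero, mul_one]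
  conv_lhs => rw [hx']
  rw [map_mul, hy1, one_mul, map_zpow₀]

/-- **(VG)**: an element fixed by the inertia group `I_A`, `A` over `ℓ`, has valuation in
`v(ℓ)^ℤ`. -/
theorem exists_valuation_eq_zpow {ℓ : ℕ} (hℓ : ℓ.Prime) {A : ValuationSubring Ω}
    (hA : A.LiesOverPrime ℓ) {x : Ω} (hx0 : x ≠ 0)
    (hx : ∀ σ ∈ A.inertiaSubgroupIn ℚ, σ x = x) :
    ∃ n : ℤ, A.valuation x = A.valuation (ℓ : Ω) ^ n := by
  haveI : Fact ℓ.Prime := ⟨hℓ⟩
  have hP : (padicPlace ℓ).LiesOverPrime ℓ := Fermat.Agent.S55lib.padicPlace_liesOverPrime ℓ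
  obtain ⟨g, rfl⟩ := Fermat.Agent.S56lib.TWSel.exists_smul_eq_of_liesOverPrime hℓ hP hA
  set P : ValuationSubring Ω := padicPlace ℓ with hPdef
  have hℓ0 : (ℓ : Ω) ≠ 0 := Nat.cast_ne_zero.mpr hℓ.ne_zero
  -- `g⁻¹ x` is fixed by `I_P`
  have hx' : ∀ σ ∈ P.inertiaSubgroupIn ℚ, σ (g⁻¹ x) = g⁻¹ x := by
    intro σ hσ
    have h1 : g * σ * g⁻¹ ∈ (g • P).inertiaSubgroupIn ℚ :=
      Fermat.Agent.S56lib.TWSel.conj_mem_inertia hσ
    have h2 := hx _ h1
    rw [AlgEquiv.mul_apply, AlgEquiv.mul_apply] at h2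
    have h3 : g⁻¹ (g (σ (g⁻¹ x))) = g⁻¹ x := congrArg (fun t => g⁻¹ t) h2
    rw [Fermat.Agent.S56lib.TWSel.inv_apply_apply] at h3
    exact h3
  have hx0' : g⁻¹ x ≠ 0 := (_root_.map_ne_zero _).2 hx0
  obtain ⟨n, hn⟩ := exists_valuation_eq_zpow_padicPlace ℓ hx0' hx'
  refine ⟨n, ?_⟩
  -- `u = g⁻¹ x / ℓ ^ n` is a unit of `P`, so `g u = x / ℓ ^ n` is a unit of `g • P`
  set u : Ω := g⁻¹ x * ((ℓ : Ω) ^ n)⁻¹ with hu
  have hu1 : P.valuation u = 1 := by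
    rw [hu, map_mul, map_inv₀, map_zpow₀, hn]
    exact mul_inv_cancel₀ (zpow_ne_zero _ ((P.valuation.ne_zero_iff).mpr hℓ0))
  have hgu : g u = x * ((ℓ : Ω) ^ n)⁻¹ := by
    rw [hu, map_mul, map_inv₀, map_zpow₀, map_natCast]
    congr 1
    change g (g.symm x) = x
    exact g.apply_symm_apply x
  have hu0 : u ≠ 0 := mul_ne_zero hx0' (inv_ne_zero (zpow_ne_zero _ hℓ0))
  have hgu0 : g u ≠ 0 := (_root_.map_ne_zero _).2 hu0
  have hgu1 : (g • P).valuation (g u) = 1 := by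
    rw [valuation_eq_one_iff_mem hu0] at hu1
    rw [valuation_eq_one_iff_mem hgu0]
    rw [Fermat.Agent.S56lib.TWSel.mem_smul_iff, Fermat.Agent.S56lib.TWSel.mem_smul_iff,
      ← map_inv₀, Fermat.Agent.S56lib.TWSel.inv_apply_apply,
      Fermat.Agent.S56lib.TWSel.inv_apply_apply]
    exact hu1
  rw [hgu, map_mul, map_inv₀, map_zpow₀] at hgu1
  have hne : (g • P).valuation (ℓ : Ω) ^ n ≠ 0 :=
    zpow_ne_zero _ (((g • P).valuation.ne_zero_iff).mpr hℓ0)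
  calc (g • P).valuation x
      = (g • P).valuation x * ((g • P).valuation (ℓ : Ω) ^ n)⁻¹ * (g • P).valuation (ℓ : Ω) ^ n := by
        rw [mul_assoc, inv_mul_cancel₀ hne, mul_one]
    _ = (g • P).valuation (ℓ : Ω) ^ n := by rw [hgu1, one_mul]

end Fermat.Agent.S15lib.SEL
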