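/-
S15lib / SEL / BaseM (helper6).  Project E, block SEL: the base cases for the MULT-tag pieces.

A continuous cocycle `ψ : Γ → μ_r ⊂ ℚ̄ˣ`, unramified outside `r, N` and a unit class at `r`, is
`ψ g = g ξ / ξ * (g ν / ν) ^ a` with `ξ ^ (2 r) = 1`, `ν ^ r = N` fixed, `a < r`
(Hilbert 90 + value groups + unique factorisation).  Hence at most `r` (good, `N = 1`) resp. `r ^ 2`
(defect) of them.
-/
import Mathlib
import Fermat.Agent.S15lib.SEL.Defs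
import Fermat.Agent.S15lib.SEL.H90
import Fermat.Agent.S15lib.SEL.VG
import Fermat.Agent.S15lib.SEL.NT

set_option autoImplicit false
set_option linter.style.haveILetI false
set_option linter.unusedSectionVars false

noncomputable section

namespace Fermat.Agent.S15lib.SEL

local notation "Ω" => AlgebraicClosure ℚ
local notation "Γ" => (AlgebraicClosure ℚ ≃ₐ[ℚ] AlgebraicClosure ℚ)

/-- **Structure of the constrained `μ_r`-cocycles.**  `N` is `1` (good) or a prime `≠ r` (defect);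
`ν` a fixed `r`-th root of `N`. -/
theorem IsMuCocycle.exists_generator {r : ℕ} (hr : r.Prime) (N : ℕ) (hrN : r ≠ N) {ν : Ω}
    (hν0 : ν ≠ 0) (hν : ν ^ r = (N : Ω)) {ψ : Γ → Ω} (hψ : IsMuCocycle r ψ)
    (hur : ∀ ℓ : ℕ, ℓ.Prime → ℓ ≠ r → ℓ ≠ N → MulUnramAt ℓ ψ)
    (hunit : MulUnitClassAt r ψ) :
    ∃ (a : ℕ) (ξ : Ω), ξ ≠ 0 ∧ ξ ^ (2 * r) = 1 ∧ ∀ g : Γ, ψ g = g ξ / ξ * (g ν / ν) ^ a := by
  haveI : NeZero r := ⟨hr.ne_zero⟩
  have hr0 : r ≠ 0 := hr.ne_zero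
  obtain ⟨β₀, q, hβ₀0, hq0, hβ₀, hβ₀q⟩ := hψ.exists_eigen_rat
  -- clear the denominator
  set β : Ω := β₀ * (q.den : Ω) with hβdef
  have hden0 : (q.den : Ω) ≠ 0 := Nat.cast_ne_zero.mpr q.den_ne_zero
  have hβ0 : β ≠ 0 := mul_ne_zero hβ₀0 hden0
  have hβ : ∀ g : Γ, g β = ψ g * β := by
    intro g
    rw [hβdef, map_mul, map_natCast, hβ₀ g, mul_assoc]
  set m : ℤ := q.num * (q.den : ℤ) ^ (r - 1) with hmdef
  have hm0 : m ≠ 0 :=
    mul_ne_zero (Rat.num_ne_zero.mpr hq0) (pow_ne_zero _ (Int.natCast_ne_zero.mpr q.den_ne_zero))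
  have hβm : β ^ r = (m : Ω) := by
    rw [hβdef, mul_pow, hβ₀q, hmdef]
    push_cast
    have h1 : (q : Ω) = (q.num : Ω) / (q.den : Ω) := by
      rw [Rat.cast_def]
    rw [h1]
    have h2 : (q.den : Ω) ^ r = (q.den : Ω) ^ (r - 1) * (q.den : Ω) := by
      rw [← pow_succ, Nat.sub_add_cancel hr.one_le]
    rw [h2]
    field_simp
  have hψne : ∀ g, ψ g ≠ 0 := hψ.ne_zero hr0
  clear_value β m
  -- the valuations of `β`
  have hval : ∀ ℓ : ℕ, ℓ.Prime → ℓ ≠ N → ∃ A : ValuationSubring Ω, A.LiesOverPrime ℓ ∧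
      ∃ n : ℤ, A.valuation β = A.valuation (ℓ : Ω) ^ n := by
    intro ℓ hℓ hℓN
    haveI : Fact ℓ.Prime := ⟨hℓ⟩
    have hA : (padicPlace ℓ).LiesOverPrime ℓ := Fermat.Agent.S55lib.padicPlace_liesOverPrime ℓ
    refine ⟨padicPlace ℓ, hA, ?_⟩
    by_cases hℓr : ℓ = r
    · subst hℓr
      obtain ⟨β₁, hβ₁v, hβ₁⟩ := hunit (padicPlace ℓ) hA
      have hβ₁0 : β₁ ≠ 0 := by
        rintro rfl
        rw [map_zero] at hβ₁v
        exact zero_ne_one hβ₁v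
      have hx0 : β / β₁ ≠ 0 := div_ne_zero hβ0 hβ₁0
      obtain ⟨n, hn⟩ := exists_valuation_eq_zpow hℓ hA hx0 (fun σ hσ => by
        rw [map_div₀, hβ σ, hβ₁ σ hσ, mul_div_mul_left _ _ (hψne σ)])
      refine ⟨n, ?_⟩
      rw [map_div₀, hβ₁v, div_one] at hn
      exact hn
    · exact exists_valuation_eq_zpow hℓ hA hβ0 (fun σ hσ => by
        rw [hβ σ, hur ℓ hℓ hℓr hℓN (padicPlace ℓ) hA σ hσ, one_mul])
  obtain ⟨a, e, he, hae⟩ := natAbs_eq_pow_mul_pow_of_valuation hr0 N hm0 hβm hval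
  -- the sign
  obtain ⟨ε, hε, hmε⟩ : ∃ ε : Ω, ε ^ 2 = 1 ∧ (m : Ω) = ε * ((N : Ω) ^ a * (e : Ω) ^ r) := by
    rcases Int.natAbs_eq m with h | h
    · refine ⟨1, one_pow 2, ?_⟩
      rw [one_mul]
      conv_lhs => rw [h, hae]
      push_cast
      rfl
    · refine ⟨-1, by norm_num, ?_⟩
      conv_lhs => rw [h, hae]
      push_cast
      ring
  have he0 : (e : Ω) ≠ 0 := Nat.cast_ne_zero.mpr he
  have hd0 : ν ^ a * (e : Ω) ≠ 0 := mul_ne_zero (pow_ne_zero _ hν0) he0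
  refine ⟨a, β / (ν ^ a * (e : Ω)), div_ne_zero hβ0 hd0, ?_, fun g => ?_⟩
  · have h1 : (β / (ν ^ a * (e : Ω))) ^ r = ε := by
      rw [div_pow, hβm, hmε, mul_pow, ← pow_mul, mul_comm a r, pow_mul, hν]
      exact mul_div_cancel_right₀ _ (mul_ne_zero (pow_ne_zero _ (hν ▸ pow_ne_zero _ hν0))
        (pow_ne_zero _ he0))
    rw [mul_comm 2 r, pow_mul, h1, hε]
  · have hgν0 : g ν ≠ 0 := (_root_.map_ne_zero _).2 hν0
    have hgd : g (ν ^ a * (e : Ω)) = g ν ^ a * (e : Ω) := by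
      rw [map_mul, map_pow, map_natCast]
    rw [map_div₀, hgd, hβ g, div_pow]
    field_simp

/-- a chosen square root in `ℚ̄` -/
def sqrtΩ (η : Ω) : Ω := (IsAlgClosed.exists_pow_nat_eq η (n := 2) (by norm_num)).choose

theorem sqrtΩ_sq (η : Ω) : sqrtΩ η ^ 2 = η :=
  (IsAlgClosed.exists_pow_nat_eq η (n := 2) (by norm_num)).choose_spec

/-- the cocycle attached to `(a, η)`: `g ↦ g √η / √η * (g ν / ν) ^ a` -/
def muFun (ν : Ω) (a : ℕ) (η : Ω) : Γ → Ω :=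
  fun g => g (sqrtΩ η) / sqrtΩ η * (g ν / ν) ^ a

theorem muFun_eq {r : ℕ} (N : ℕ) {ν : Ω} (hν0 : ν ≠ 0) (hν : ν ^ r = (N : Ω))
    (a : ℕ) (ξ : Ω) (g : Γ) :
    g ξ / ξ * (g ν / ν) ^ a = muFun ν (a % r) (ξ ^ 2) g := by
  unfold muFun
  have h1 : (g ν / ν) ^ r = 1 := by
    rw [div_pow, ← map_pow, hν, map_natCast]
    exact div_self (hν ▸ pow_ne_zero _ hν0)
  rw [pow_eq_pow_mod a h1]
  congr 1
  have h2 : sqrtΩ (ξ ^ 2) ^ 2 = ξ ^ 2 := sqrtΩ_sq _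
  rcases sq_eq_sq_iff_eq_or_eq_neg.mp h2 with h | h
  · rw [h]
  · rw [h, map_neg, neg_div_neg_eq]

/-- the finite parameter set -/
def muParams (r : ℕ) : Finset (ℕ × Ω) :=
  Finset.range r ×ˢ Polynomial.nthRootsFinset r (1 : Ω)

theorem card_muParams_le (r : ℕ) : (muParams r).card ≤ r * r := by
  classical
  unfold muParams
  rw [Finset.card_product, Finset.card_range]
  refine Nat.mul_le_mul_left r ?_
  rw [Polynomial.nthRootsFinset_def]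
  exact (Multiset.toFinset_card_le _).trans (Polynomial.card_nthRoots r 1)

/-- **(M-defect)** (`N` prime `≠ r`) and, with `N = 1`, the main step of **(M-good)**: the constrained
cocycles are among the `muFun ν a η`, `a < r`, `η ^ r = 1`. -/
theorem muCocycle_subset {r : ℕ} (hr : r.Prime) (N : ℕ) (hrN : r ≠ N) {ν : Ω}
    (hν0 : ν ≠ 0) (hν : ν ^ r = (N : Ω)) :
    {ψ : Γ → Ω | IsMuCocycle r ψ ∧ (∀ ℓ : ℕ, ℓ.Prime → ℓ ≠ r → ℓ ≠ N → MulUnramAt ℓ ψ) ∧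
      MulUnitClassAt r ψ} ⊆ (fun p : ℕ × Ω => muFun ν p.1 p.2) '' (muParams r : Set (ℕ × Ω)) := by
  rintro ψ ⟨hψ, hur, hunit⟩
  obtain ⟨a, ξ, hξ0, hξ, h⟩ := hψ.exists_generator hr N hrN hν0 hν hur hunit
  refine ⟨(a % r, ξ ^ 2), ?_, ?_⟩
  · rw [Finset.mem_coe, muParams, Finset.mem_product, Finset.mem_range,
      Polynomial.mem_nthRootsFinset hr.pos]
    exact ⟨Nat.mod_lt _ hr.pos, by rw [← pow_mul]; exact hξ⟩
  · funext g
    rw [h g]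
    exact (muFun_eq N hν0 hν a ξ g).symm

/-- **(M-defect)**: at most `r ^ 2` cocycles unramified outside `r, N`, unit class at `r`. -/
theorem muCocycle_card_le_sq {r N : ℕ} (hr : r.Prime) (hN : N.Prime) (hrN : r ≠ N) :
    {ψ : Γ → Ω | IsMuCocycle r ψ ∧ (∀ ℓ : ℕ, ℓ.Prime → ℓ ≠ r → ℓ ≠ N → MulUnramAt ℓ ψ) ∧
      MulUnitClassAt r ψ}.Finite ∧
    {ψ : Γ → Ω | IsMuCocycle r ψ ∧ (∀ ℓ : ℕ, ℓ.Prime → ℓ ≠ r → ℓ ≠ N → MulUnramAt ℓ ψ) ∧
      MulUnitClassAt r ψ}.ncard ≤ r ^ 2 := by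
  obtain ⟨ν, hν⟩ := IsAlgClosed.exists_pow_nat_eq (N : Ω) (n := r) hr.pos
  have hN0 : (N : Ω) ≠ 0 := Nat.cast_ne_zero.mpr hN.ne_zero
  have hν0 : ν ≠ 0 := by
    rintro rfl
    rw [zero_pow hr.ne_zero] at hν
    exact hN0 hν.symm
  have hsub := muCocycle_subset hr N hrN hν0 hν
  have hfin : ((fun p : ℕ × Ω => muFun ν p.1 p.2) '' (muParams r : Set (ℕ × Ω))).Finite :=
    (Finset.finite_toSet _).image _
  refine ⟨hfin.subset hsub, ?_⟩
  calc _ ≤ ((fun p : ℕ × Ω => muFun ν p.1 p.2) '' (muParams r : Set (ℕ × Ω))).ncard :=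
        Set.ncard_le_ncard hsub hfin
    _ ≤ (muParams r : Set (ℕ × Ω)).ncard := Set.ncard_image_le (Finset.finite_toSet _)
    _ = (muParams r).card := Set.ncard_coe_finset _
    _ ≤ r * r := card_muParams_le r
    _ = r ^ 2 := (sq r).symm

/-- **(M-good)**: at most `r` cocycles unramified outside `r`, unit class at `r`. -/
theorem muCocycle_card_le {r : ℕ} (hr : r.Prime) :
    {ψ : Γ → Ω | IsMuCocycle r ψ ∧ (∀ ℓ : ℕ, ℓ.Prime → ℓ ≠ r → MulUnramAt ℓ ψ) ∧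
      MulUnitClassAt r ψ}.Finite ∧
    {ψ : Γ → Ω | IsMuCocycle r ψ ∧ (∀ ℓ : ℕ, ℓ.Prime → ℓ ≠ r → MulUnramAt ℓ ψ) ∧
      MulUnitClassAt r ψ}.ncard ≤ r := by
  classical
  have hsub0 := muCocycle_subset hr 1 hr.ne_one (ν := 1) one_ne_zero (by rw [one_pow, Nat.cast_one])
  -- with `ν = 1` the parameter `a` is irrelevant
  have hsub : {ψ : Γ → Ω | IsMuCocycle r ψ ∧ (∀ ℓ : ℕ, ℓ.Prime → ℓ ≠ r → MulUnramAt ℓ ψ) ∧
      MulUnitClassAt r ψ} ⊆ (fun η : Ω => muFun 1 0 η) ''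
        (Polynomial.nthRootsFinset r (1 : Ω) : Set Ω) := by
    rintro ψ ⟨hψ, hur, hunit⟩
    obtain ⟨⟨a, η⟩, hp, rfl⟩ := hsub0 ⟨hψ, fun ℓ hℓ hℓr _ => hur ℓ hℓ hℓr, hunit⟩
    rw [Finset.mem_coe, muParams, Finset.mem_product] at hp
    refine ⟨η, hp.2, ?_⟩
    funext g
    simp only [muFun, map_one, div_one, one_pow]
  have hfin : ((fun η : Ω => muFun 1 0 η) ''
      (Polynomial.nthRootsFinset r (1 : Ω) : Set Ω)).Finite := (Finset.finite_toSet _).image _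
  refine ⟨hfin.subset hsub, ?_⟩
  calc _ ≤ ((fun η : Ω => muFun 1 0 η) '' (Polynomial.nthRootsFinset r (1 : Ω) : Set Ω)).ncard :=
        Set.ncard_le_ncard hsub hfin
    _ ≤ (Polynomial.nthRootsFinset r (1 : Ω) : Set Ω).ncard :=
        Set.ncard_image_le (Finset.finite_toSet _)
    _ = (Polynomial.nthRootsFinset r (1 : Ω)).card := Set.ncard_coe_finset _
    _ ≤ r := by
        rw [Polynomial.nthRootsFinset_def]
        exact (Multiset.toFinset_card_le _).trans (Polynomial.card_nthRoots r 1)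

end Fermat.Agent.S15lib.SEL
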