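/-
S15lib / SEL / Count (helper6).  Project E, block SEL, abstract part.

**The filtration count** (Mazur I.1.7 at the level of cocycles).  Let `K ≤ (X → V)` be a group of
`V`-valued functions (in the application: the Kummer cocycles `σ ↦ σ y - y`, `X = G_ℚ`) and
`⊥ = W 0 ≤ W 1 ≤ … ≤ W n = ⊤` a chain of subgroups of `V`.  Put `K_i = {c ∈ K | c takes values in
W i}`.  Then `K_0 = ⊥`, `K_n = K` and `K_{i+1} / K_i` embeds into the functions `X → W (i+1) / W i`;
so if the image of `K_{i+1}` in `X → W (i+1) / W i` is contained in a finite set of cardinality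
`≤ b i` (for the application: the constrained cocycles of the `i`-th Jordan–Hölder piece), then `K` is
finite of cardinality `≤ ∏ b i`.  No exact sequences of cohomology are needed: the cancellation of
`h⁰` against `h¹` in Mazur's inequality is hidden in `|B¹(V)| = |V| / |H⁰(V)|`.
-/
import Mathlib

set_option autoImplicit false
set_option linter.style.haveILetI false

namespace Fermat.Agent.S15lib.SEL

open scoped BigOperators

section Chain

variable {K : Type*} [AddCommGroup K]

/-- the subgroup `B` is finite of cardinality `≤ |A| * b` as soon as `A ≤ B` is finite and the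
classes of `B` modulo `A` are separated by a map into a finite type of cardinality `≤ b`. -/
theorem finite_and_card_le_of_sep {A B : AddSubgroup K} (_hAB : A ≤ B) [Finite A]
    {S : Type*} [Finite S] (f : B → S)
    (hf : ∀ x y : B, f x = f y → (x : K) - (y : K) ∈ A) :
    Finite B ∧ Nat.card B ≤ Nat.card A * Nat.card S := by
  classical
  -- choose a section of `f` on its range and send `x` to `(x - s (f x), f x)`
  have hsec : ∀ s : Set.range f, ∃ x : B, f x = s.1 := fun s => s.2
  choose sec hsecs using hsec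
  let φ : B → A × S := fun x =>
    (⟨(x : K) - (sec ⟨f x, x, rfl⟩ : K), hf x _ (hsecs ⟨f x, x, rfl⟩).symm⟩, f x)
  have hφ : Function.Injective φ := by
    intro x y hxy
    have h2 : f x = f y := congrArg Prod.snd hxy
    have h1 : (x : K) - (sec ⟨f x, x, rfl⟩ : K) = (y : K) - (sec ⟨f y, y, rfl⟩ : K) :=
      congrArg (fun z : A × S => (z.1 : K)) hxy
    have h3 : (⟨f x, x, rfl⟩ : Set.range f) = ⟨f y, y, rfl⟩ := Subtype.ext h2
    rw [h3] at h1
    exact Subtype.ext (sub_left_injective h1)
  haveI : Finite B := Finite.of_injective φ hφ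
  refine ⟨inferInstance, ?_⟩
  calc Nat.card B ≤ Nat.card (A × S) := Nat.card_le_card_of_injective φ hφ
    _ = Nat.card A * Nat.card S := Nat.card_prod A S

/-- **Chain count.**  A chain of subgroups `⊥ = C 0 ≤ … ≤ C n`, the classes of `C (i+1)` modulo
`C i` being separated by a map into a finite type of cardinality `≤ b i`: then `C n` is finite of
cardinality `≤ ∏ b i`. -/
theorem finite_and_card_le_prod_of_chain (n : ℕ) (C : ℕ → AddSubgroup K) (h0 : C 0 = ⊥)
    (hmono : ∀ i < n, C i ≤ C (i + 1)) (b : ℕ → ℕ)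
    (hb : ∀ i < n, ∃ (S : Type) (_ : Finite S) (f : C (i + 1) → S), Nat.card S ≤ b i ∧
      ∀ x y : C (i + 1), f x = f y → (x : K) - (y : K) ∈ C i) :
    Finite (C n) ∧ Nat.card (C n) ≤ ∏ i ∈ Finset.range n, b i := by
  induction n with
  | zero =>
    rw [h0]
    refine ⟨inferInstance, ?_⟩
    simp
  | succ n ih =>
    obtain ⟨hfin, hcard⟩ := ih (fun i hi => hmono i (Nat.lt_succ_of_lt hi))
      (fun i hi => hb i (Nat.lt_succ_of_lt hi))
    obtain ⟨S, hS, f, hSb, hf⟩ := hb n (Nat.lt_succ_self n)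
    haveI := hfin
    haveI := hS
    obtain ⟨hfin', hcard'⟩ := finite_and_card_le_of_sep (hmono n (Nat.lt_succ_self n)) f hf
    refine ⟨hfin', ?_⟩
    rw [Finset.prod_range_succ]
    calc Nat.card (C (n + 1)) ≤ Nat.card (C n) * Nat.card S := hcard'
      _ ≤ (∏ i ∈ Finset.range n, b i) * b n := Nat.mul_le_mul hcard hSb

end Chain

section Functions

variable {X V : Type*} [AddCommGroup V]

/-- the functions of `K` with values in the subgroup `W` -/
def valuedIn (K : AddSubgroup (X → V)) (W : AddSubgroup V) : AddSubgroup (X → V) where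
  carrier := {c | c ∈ K ∧ ∀ x, c x ∈ W}
  zero_mem' := ⟨K.zero_mem, fun _ => W.zero_mem⟩
  add_mem' := fun ha hb => ⟨K.add_mem ha.1 hb.1, fun x => W.add_mem (ha.2 x) (hb.2 x)⟩
  neg_mem' := fun ha => ⟨K.neg_mem ha.1, fun x => W.neg_mem (ha.2 x)⟩

theorem mem_valuedIn {K : AddSubgroup (X → V)} {W : AddSubgroup V} {c : X → V} :
    c ∈ valuedIn K W ↔ c ∈ K ∧ ∀ x, c x ∈ W := Iff.rfl

theorem valuedIn_mono (K : AddSubgroup (X → V)) {W W' : AddSubgroup V} (h : W ≤ W') :
    valuedIn K W ≤ valuedIn K W' := fun _ hc => ⟨hc.1, fun x => h (hc.2 x)⟩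

theorem valuedIn_bot (K : AddSubgroup (X → V)) : valuedIn K ⊥ = ⊥ := by
  ext c
  rw [mem_valuedIn, AddSubgroup.mem_bot]
  constructor
  · rintro ⟨-, h⟩
    funext x
    exact (AddSubgroup.mem_bot.mp (h x))
  · rintro rfl
    exact ⟨K.zero_mem, fun _ => AddSubgroup.zero_mem _⟩

theorem valuedIn_top (K : AddSubgroup (X → V)) : valuedIn K ⊤ = K := by
  ext c
  rw [mem_valuedIn]
  exact ⟨fun h => h.1, fun h => ⟨h, fun _ => AddSubgroup.mem_top _⟩⟩

/-- **Filtration count.**  `K ≤ (X → V)`, `⊥ = W 0 ≤ … ≤ W n = ⊤`; for every `i < n` the functions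
of `K` with values in `W (i+1)` are separated modulo `W i` by a map `f i` into a finite type of
cardinality `≤ b i` (`f i c = f i c'` implies that `c - c'` has values in `W i`).  Then `K` is finite
and `|K| ≤ ∏ b i`. -/
theorem finite_and_card_le_prod_of_filtration (K : AddSubgroup (X → V)) (n : ℕ)
    (W : ℕ → AddSubgroup V) (hW0 : W 0 = ⊥) (hWn : W n = ⊤) (hmono : ∀ i < n, W i ≤ W (i + 1))
    (b : ℕ → ℕ)
    (hb : ∀ i < n, ∃ (S : Type) (_ : Finite S) (f : valuedIn K (W (i + 1)) → S),
      Nat.card S ≤ b i ∧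
      ∀ c c' : valuedIn K (W (i + 1)), f c = f c' → ∀ x, (c : X → V) x - (c' : X → V) x ∈ W i) :
    Finite K ∧ Nat.card K ≤ ∏ i ∈ Finset.range n, b i := by
  have h := finite_and_card_le_prod_of_chain (K := X → V) n (fun i => valuedIn K (W i))
    (by simp only [hW0]; exact valuedIn_bot K)
    (fun i hi => valuedIn_mono K (hmono i hi)) b
    (fun i hi => by
      obtain ⟨S, hS, f, hSb, hf⟩ := hb i hi
      refine ⟨S, hS, f, hSb, fun c c' hcc => ⟨K.sub_mem c.2.1 c'.2.1, fun x => ?_⟩⟩
      exact hf c c' hcc x)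
  simp only [hWn, valuedIn_top] at h
  exact h

end Functions

end Fermat.Agent.S15lib.SEL
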