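/-
S15lib / SEL / Main (helper6).  Project E, block SEL: **the assembled count** (Mazur I.1.7 for the
Kummer cocycles): `|K| ≤ r ^ (#mult + #defect)`.

`Count.finite_and_card_le_prod_of_filtration` with, for the `i`-th piece, the separating map
`c ↦ e ∘ c` (étale tag; into the finite set of `BaseE`) resp. `c ↦ φ ∘ c` (mult tag; into the finite
set of `BaseM`).
-/
import Mathlib
import Fermat.Agent.S15lib.SEL.Defs
import Fermat.Agent.S15lib.SEL.Count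
import Fermat.Agent.S15lib.SEL.BaseE
import Fermat.Agent.S15lib.SEL.BaseM

set_option autoImplicit false
set_option linter.style.haveILetI false
set_option linter.unusedSectionVars false

noncomputable section

namespace Fermat.Agent.S15lib.SEL

local notation "Ω" => AlgebraicClosure ℚ
local notation "Γ" => (AlgebraicClosure ℚ ≃ₐ[ℚ] AlgebraicClosure ℚ)

section Piece

variable {r N : ℕ} {V : Type*} [AddCommGroup V] [DistribMulAction Γ V]
  {K : AddSubgroup (Γ → V)} {W₀ W₁ : AddSubgroup V}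

/-- étale-tag piece: `e ∘ c` is a continuous additive character -/
theorem isAddChar_comp (hKc : ∀ c ∈ K, IsCocycle c ∧ IsLevelConst c)
    (hstab : ∀ (g : Γ), ∀ x ∈ W₁, g • x ∈ W₁) {e : V → ZMod r}
    (hadd : ∀ x ∈ W₁, ∀ y ∈ W₁, e (x + y) = e x + e y)
    (hinv : ∀ (g : Γ), ∀ x ∈ W₁, e (g • x) = e x)
    {c : Γ → V} (hc : c ∈ valuedIn K W₁) : IsAddChar (e ∘ c) := by
  obtain ⟨hcoc, F, hF, hlev⟩ := hKc c hc.1
  refine ⟨fun g h => ?_, F, hF, fun g s hs => ?_⟩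
  · show e (c (g * h)) = e (c g) + e (c h)
    rw [hcoc g h, hadd _ (hc.2 g) _ (hstab g _ (hc.2 h)), hinv g _ (hc.2 h)]
  · show e (c (g * s)) = e (c g)
    rw [hlev g s hs]

/-- mult-tag piece: `φ ∘ c` is a continuous `μ_r`-valued cocycle -/
theorem isMuCocycle_comp (hKc : ∀ c ∈ K, IsCocycle c ∧ IsLevelConst c)
    (hstab : ∀ (g : Γ), ∀ x ∈ W₁, g • x ∈ W₁) {φ : V → Ω}
    (hmul : ∀ x ∈ W₁, ∀ y ∈ W₁, φ (x + y) = φ x * φ y)
    (hpow : ∀ x ∈ W₁, φ x ^ r = 1)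
    (hequiv : ∀ (g : Γ), ∀ x ∈ W₁, φ (g • x) = g (φ x))
    {c : Γ → V} (hc : c ∈ valuedIn K W₁) : IsMuCocycle r (φ ∘ c) := by
  obtain ⟨hcoc, F, hF, hlev⟩ := hKc c hc.1
  refine ⟨fun g h => ?_, fun g => hpow _ (hc.2 g), F, hF, fun g s hs => ?_⟩
  · show φ (c (g * h)) = φ (c g) * g (φ (c h))
    rw [hcoc g h, hmul _ (hc.2 g) _ (hstab g _ (hc.2 h)), hequiv g _ (hc.2 h)]
  · show φ (c (g * s)) = φ (c g)
    rw [hlev g s hs]

/-- additivity gives subtractivity -/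
theorem map_sub_of_add {Q : Type*} [AddCommGroup Q] {e : V → Q}
    (hadd : ∀ x ∈ W₁, ∀ y ∈ W₁, e (x + y) = e x + e y) {x y : V} (hx : x ∈ W₁) (hy : y ∈ W₁) :
    e (x - y) = e x - e y := by
  have h := hadd (x - y) (W₁.sub_mem hx hy) y hy
  rw [sub_add_cancel] at h
  rw [h, add_sub_cancel_right]

/-- the separation property of an étale-tag piece -/
theorem sub_mem_of_comp_eq_add {e : V → ZMod r}
    (hadd : ∀ x ∈ W₁, ∀ y ∈ W₁, e (x + y) = e x + e y)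
    (hker : ∀ x ∈ W₁, e x = 0 ↔ x ∈ W₀)
    {c c' : Γ → V} (hc : c ∈ valuedIn K W₁) (hc' : c' ∈ valuedIn K W₁)
    (h : e ∘ c = e ∘ c') (g : Γ) : c g - c' g ∈ W₀ := by
  rw [← hker _ (W₁.sub_mem (hc.2 g) (hc'.2 g)), map_sub_of_add hadd (hc.2 g) (hc'.2 g)]
  have := congrFun h g
  simp only [Function.comp_apply] at this
  rw [this, sub_self]

/-- the separation property of a mult-tag piece -/
theorem sub_mem_of_comp_eq_mul (hr : r ≠ 0) {φ : V → Ω}
    (hmul : ∀ x ∈ W₁, ∀ y ∈ W₁, φ (x + y) = φ x * φ y)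
    (hpow : ∀ x ∈ W₁, φ x ^ r = 1)
    (hker : ∀ x ∈ W₁, φ x = 1 ↔ x ∈ W₀)
    {c c' : Γ → V} (hc : c ∈ valuedIn K W₁) (hc' : c' ∈ valuedIn K W₁)
    (h : φ ∘ c = φ ∘ c') (g : Γ) : c g - c' g ∈ W₀ := by
  rw [← hker _ (W₁.sub_mem (hc.2 g) (hc'.2 g))]
  have h1 := hmul (c g - c' g) (W₁.sub_mem (hc.2 g) (hc'.2 g)) (c' g) (hc'.2 g)
  rw [sub_add_cancel] at h1
  have h2 := congrFun h g
  simp only [Function.comp_apply] at h2
  have h0 : φ (c' g) ≠ 0 := by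
    intro h0
    have := hpow _ (hc'.2 g)
    rw [h0, zero_pow hr] at this
    exact zero_ne_one this
  rw [h2] at h1
  have h3 : 1 * φ (c' g) = φ (c g - c' g) * φ (c' g) := by rw [one_mul]; exact h1
  exact (mul_right_cancel₀ h0 h3).symm

end Piece

/-- **The assembled count** (Mazur I.1.7 for the Kummer cocycles).
`K` = a group of continuous cocycles `Γ → V`, unramified outside `r, N`; `⊥ = W 0 ≤ … ≤ W n = ⊤`;
every piece `W i ≤ W (i+1)` is
* étale-tag: an additive `e : W (i+1) → ZMod r` with kernel `W i`, `Γ`-invariant, such that `e ∘ c` is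
  unramified at `r` for the `c ∈ K` with values in `W (i+1)` (lemma (I) + tag), or
* mult-tag: an equivariant multiplicative `φ : W (i+1) → μ_r ⊂ ℚ̄` with kernel `W i` such that `φ ∘ c`
  is a unit class at `r` (lemma (II));
and good at `N` (`c σ ∈ W i` for `σ` in the inertia groups over `N`, lemma (III)) or defect (no
condition).  Then `K` is finite and `|K| ≤ ∏ bound`, i.e. `r ^ (#mult + #defect)`. -/
theorem kummer_card_le {r N : ℕ} (hr : r.Prime) (hN : N.Prime) (hrN : r ≠ N)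
    {V : Type*} [AddCommGroup V] [DistribMulAction Γ V]
    (K : AddSubgroup (Γ → V))
    (hKc : ∀ c ∈ K, IsCocycle c ∧ IsLevelConst c)
    (hKur : ∀ c ∈ K, ∀ ℓ : ℕ, ℓ.Prime → ℓ ≠ r → ℓ ≠ N → UnramAt ℓ c)
    (n : ℕ) (W : ℕ → AddSubgroup V) (hW0 : W 0 = ⊥) (hWn : W n = ⊤)
    (hmono : ∀ i < n, W i ≤ W (i + 1))
    (hstab : ∀ i ≤ n, ∀ (g : Γ), ∀ x ∈ W i, g • x ∈ W i)
    (kind : ℕ → Kind)
    (hE : ∀ i < n, kind i = .eGood ∨ kind i = .eDefect →
      ∃ e : V → ZMod r,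
        (∀ x ∈ W (i + 1), ∀ y ∈ W (i + 1), e (x + y) = e x + e y) ∧
        (∀ x ∈ W (i + 1), e x = 0 ↔ x ∈ W i) ∧
        (∀ (g : Γ), ∀ x ∈ W (i + 1), e (g • x) = e x) ∧
        ∀ c ∈ valuedIn K (W (i + 1)), AddUnramAt r (e ∘ c))
    (hM : ∀ i < n, kind i = .mGood ∨ kind i = .mDefect →
      ∃ φ : V → Ω,
        (∀ x ∈ W (i + 1), ∀ y ∈ W (i + 1), φ (x + y) = φ x * φ y) ∧
        (∀ x ∈ W (i + 1), φ x ^ r = 1) ∧
        (∀ x ∈ W (i + 1), φ x = 1 ↔ x ∈ W i) ∧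
        (∀ (g : Γ), ∀ x ∈ W (i + 1), φ (g • x) = g (φ x)) ∧
        ∀ c ∈ valuedIn K (W (i + 1)), MulUnitClassAt r (φ ∘ c))
    (hgoodN : ∀ i < n, kind i = .eGood ∨ kind i = .mGood →
      ∀ c ∈ valuedIn K (W (i + 1)), ∀ A : ValuationSubring Ω, A.LiesOverPrime N →
        ∀ σ ∈ A.inertiaSubgroupIn ℚ, c σ ∈ W i) :
    Finite K ∧ Nat.card K ≤ ∏ i ∈ Finset.range n, (kind i).bound r := by
  haveI : Fact r.Prime := ⟨hr⟩
  refine finite_and_card_le_prod_of_filtration K n W hW0 hWn hmono (fun i => (kind i).bound r)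
    (fun i hi => ?_)
  have hstab₁ := hstab (i + 1) hi
  have hzero₀ : (0 : V) ∈ W i := (W i).zero_mem
  have hzero₁ : (0 : V) ∈ W (i + 1) := (W (i + 1)).zero_mem
  rcases hk : kind i with _ | _ | _ | _
  · -- étale, good: no new cocycles
    obtain ⟨e, hadd, hker, hinv, hur⟩ := hE i hi (Or.inl hk)
    have he0 : e 0 = 0 := (hker 0 hzero₁).mpr hzero₀
    have hall : ∀ c ∈ valuedIn K (W (i + 1)), ∀ g, c g ∈ W i := by
      intro c hc g
      have hχ : IsAddChar (e ∘ c) := isAddChar_comp hKc hstab₁ hadd hinv hc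
      have h0 := addChar_eq_zero_of_unram (e ∘ c) hχ (fun ℓ hℓ => by
        by_cases hℓr : ℓ = r
        · subst hℓr
          exact hur c hc
        · intro A hA σ hσ
          show e (c σ) = 0
          by_cases hℓN : ℓ = N
          · subst hℓN
            exact (hker _ (hc.2 σ)).mpr (hgoodN i hi (Or.inl hk) c hc A hA σ hσ)
          · rw [hKur c hc.1 ℓ hℓ hℓr hℓN A hA σ hσ, he0])
      have := congrFun h0 g
      exact (hker _ (hc.2 g)).mp this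
    refine ⟨PUnit, inferInstance, fun _ => PUnit.unit, ?_, fun c c' _ g => ?_⟩
    · simp [Kind.bound]
    · exact (W i).sub_mem (hall c c.2 g) (hall c' c'.2 g)
  · -- étale, defect
    obtain ⟨e, hadd, hker, hinv, hur⟩ := hE i hi (Or.inr hk)
    have he0 : e 0 = 0 := (hker 0 hzero₁).mpr hzero₀
    obtain ⟨hfin, hcard⟩ := addChar_card_le (r := r) hN hrN
    set S : Set (Γ → ZMod r) :=
      {χ : Γ → ZMod r | IsAddChar χ ∧ ∀ ℓ : ℕ, ℓ.Prime → ℓ ≠ N → AddUnramAt ℓ χ} with hS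
    have hmem : ∀ c : valuedIn K (W (i + 1)), e ∘ (c : Γ → V) ∈ S := by
      intro c
      refine ⟨isAddChar_comp hKc hstab₁ hadd hinv c.2, fun ℓ hℓ hℓN => ?_⟩
      by_cases hℓr : ℓ = r
      · subst hℓr
        exact hur c c.2
      · intro A hA σ hσ
        show e ((c : Γ → V) σ) = 0
        rw [hKur c c.2.1 ℓ hℓ hℓr hℓN A hA σ hσ, he0]
    refine ⟨S, Set.finite_coe_iff.mpr hfin, fun c => ⟨e ∘ (c : Γ → V), hmem c⟩, ?_,
      fun c c' h g => ?_⟩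
    · rw [_root_.Nat.card_coe_set_eq]
      exact hcard
    · exact sub_mem_of_comp_eq_add hadd hker c.2 c'.2 (congrArg Subtype.val h) g
  · -- mult, good
    obtain ⟨φ, hmul, hpow, hker, hequiv, hunit⟩ := hM i hi (Or.inl hk)
    have hφ0 : φ 0 = 1 := (hker 0 hzero₁).mpr hzero₀
    obtain ⟨hfin, hcard⟩ := muCocycle_card_le hr
    set S : Set (Γ → Ω) :=
      {ψ : Γ → Ω | IsMuCocycle r ψ ∧ (∀ ℓ : ℕ, ℓ.Prime → ℓ ≠ r → MulUnramAt ℓ ψ) ∧
        MulUnitClassAt r ψ} with hS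
    have hmem : ∀ c : valuedIn K (W (i + 1)), φ ∘ (c : Γ → V) ∈ S := by
      intro c
      refine ⟨isMuCocycle_comp hKc hstab₁ hmul hpow hequiv c.2, fun ℓ hℓ hℓr => ?_, hunit c c.2⟩
      intro A hA σ hσ
      show φ ((c : Γ → V) σ) = 1
      by_cases hℓN : ℓ = N
      · subst hℓN
        exact (hker _ (c.2.2 σ)).mpr (hgoodN i hi (Or.inr hk) c c.2 A hA σ hσ)
      · rw [hKur c c.2.1 ℓ hℓ hℓr hℓN A hA σ hσ, hφ0]
    refine ⟨S, Set.finite_coe_iff.mpr hfin, fun c => ⟨φ ∘ (c : Γ → V), hmem c⟩, ?_,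
      fun c c' h g => ?_⟩
    · rw [_root_.Nat.card_coe_set_eq]
      exact hcard
    · exact sub_mem_of_comp_eq_mul hr.ne_zero hmul hpow hker c.2 c'.2 (congrArg Subtype.val h) g
  · -- mult, defect
    obtain ⟨φ, hmul, hpow, hker, hequiv, hunit⟩ := hM i hi (Or.inr hk)
    have hφ0 : φ 0 = 1 := (hker 0 hzero₁).mpr hzero₀
    obtain ⟨hfin, hcard⟩ := muCocycle_card_le_sq hr hN hrN
    set S : Set (Γ → Ω) :=
      {ψ : Γ → Ω | IsMuCocycle r ψ ∧ (∀ ℓ : ℕ, ℓ.Prime → ℓ ≠ r → ℓ ≠ N → MulUnramAt ℓ ψ) ∧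
        MulUnitClassAt r ψ} with hS
    have hmem : ∀ c : valuedIn K (W (i + 1)), φ ∘ (c : Γ → V) ∈ S := by
      intro c
      refine ⟨isMuCocycle_comp hKc hstab₁ hmul hpow hequiv c.2, fun ℓ hℓ hℓr hℓN => ?_,
        hunit c c.2⟩
      intro A hA σ hσ
      show φ ((c : Γ → V) σ) = 1
      rw [hKur c c.2.1 ℓ hℓ hℓr hℓN A hA σ hσ, hφ0]
    refine ⟨S, Set.finite_coe_iff.mpr hfin, fun c => ⟨φ ∘ (c : Γ → V), hmem c⟩, ?_,
      fun c c' h g => ?_⟩
    · rw [_root_.Nat.card_coe_set_eq]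
      exact hcard
    · exact sub_mem_of_comp_eq_mul hr.ne_zero hmul hpow hker c.2 c'.2 (congrArg Subtype.val h) g

end Fermat.Agent.S15lib.SEL
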