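/-
S15lib / SEL / IfaceSEL (helper6).  Project E, block SEL: umbrella module.  ALL statements below are
PROVED (no stubs left); this file only collects the imports.

No module structure on the Jordan–Hölder pieces is needed:

* an ÉTALE-tag piece `W ≤ W'` (trivial action on `W'/W`) turns a Kummer cocycle `c` with values in
  `W'` into an additive CHARACTER `χ = e ∘ c : Γ → ZMod r` (`e : W' → ZMod r` additive with kernel
  `W`);
* a MULT-tag piece (`W'/W ≅ μ_r` through an equivariant multiplicative `φ : W' → ℚ̄`) turns it into a
  multiplicative COCYCLE `ψ = φ ∘ c : Γ → ℚ̄` with values in `μ_r`, `ψ (g h) = ψ g * g (ψ h)`.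

Base cases (`r` prime, `N ≠ r` prime):
  (E-good)   `BaseE.addChar_eq_zero_of_unram` : `χ` unramified at every prime ⇒ `χ = 0`   (Minkowski)
  (E-defect) `BaseE.addChar_card_le`          : the `χ` unramified outside `N`: at most `r`
  (M-good)   `BaseM.muCocycle_card_le`        : the `ψ` unramified outside `r`, unit class at `r`:
                                                at most `r`   (Hilbert 90: `ψ = σξ/ξ`, `ξ ∈ μ_{2r}`)
  (M-defect) `BaseM.muCocycle_card_le_sq`     : the `ψ` unramified outside `r, N`, unit class at `r`:
                                                at most `r ^ 2`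
Assembled count: `Main.kummer_card_le` (`Kind`, `Kind.bound`).
Abstract counting: `Count.finite_and_card_le_prod_of_filtration`.
Tools: `H90.IsMuCocycle.exists_eigen(_rat)` (Hilbert 90 over `ℚ̄`), `VG.exists_valuation_eq_zpow`
(inertia-fixed elements have valuation in `v(ℓ)^ℤ`), `NT.exists_eq_pow_mul_pow`.
-/
import Mathlib
import Fermat.Agent.S15lib.SEL.Defs
import Fermat.Agent.S15lib.SEL.Count
import Fermat.Agent.S15lib.SEL.BaseE
import Fermat.Agent.S15lib.SEL.BaseM
import Fermat.Agent.S15lib.SEL.Main
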